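import Fermat.Agent.LT.Asai.PeriodMain
import Fermat.Agent.LT.Dihedral.Final
import Fermat.Agent.LT.Descent.Main

/-!
# C1–C3: the weight one form of a semistable curve
-/

set_option autoImplicit false

noncomputable section

namespace Fermat.Agent.LT

/-- C1–C3. -/
theorem stmtWeightOne : StmtWeightOne :=
  stmtWeightOne_of Dihedral.stmtDihedral Descent.stmtDescent Asai.stmtThetaLift

end Fermat.Agent.LT

end
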