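import Fermat.Agent.LT.Wiring.Root
import Fermat.Agent.LT.Wiring.WeightOne
import Fermat.Agent.LT.C0.Main
import Fermat.Agent.LT.C4.Main
import Fermat.Agent.LT.LevelThree.Main
import Fermat.Agent.LT.CubeFree
import Fermat.Agent.CarayolHigh.ModelFinal
import Fermat.Agent.LowerSq.Lower
import Fermat.Agent.LL.OfStmt38
import Fermat.Agent.LLp.Frey
import Fermat.Agent.LLp.LiftingInputs
import Fermat.Agent.R59.CoreProof
import Fermat.Agent.S12
import Fermat.Agent.S36

/-!
# LT route: S59 and S01 from level lowering at an unramified prime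

Every other input of `fermat_of_inputs` is a theorem; the one hypothesis is the type of S38.
-/

set_option autoImplicit false

noncomputable section

namespace Fermat.Agent.LT.Leaves

/-- The `R = T` core. -/
theorem stmtCore : R59.StmtCore :=
  R59.stmtCore_of_leaves @Fermat.Agent.S36.result (LLp.stmtFlatLower_of LLp.stmtLowerAtP)

/-- S59 from the type of S38. -/
theorem stmt59_of_stmt38 (h38 : R59.Stmt38) : Wiring.Stmt59 :=
  stmt59_of_inputs LowerSq.stmtLower h38 LLp.stmt40 LowerSq.stmt58 stmtCore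

/-- S43 from the type of S38. -/
theorem stmt43_of_stmt38 (h38 : R59.Stmt38) : Wiring.Stmt43 :=
  fun P _ _ hcond hq _ hqp hqN hirr hmod hunr =>
    LL.frey_level_lowering_of_stmt38 h38 P hcond hq hqp hqN hirr hmod hunr

/-- S44. -/
theorem stmt44 : Wiring.Stmt44 :=
  fun P _ hcond hpN hirr hmod => LLp.frey_lowering_at_p P hcond hpN hirr hmod

/-- S01 from the type of S38. -/
theorem fermat_of_stmt38 (h38 : R59.Stmt38)
    (n : ℕ) (hn : 3 ≤ n) (a b c : ℕ) (ha : 0 < a) (hb : 0 < b) (hc : 0 < c) :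
    a ^ n + b ^ n ≠ c ^ n :=
  fermat_of_inputs C0.stmtC0 stmtWeightOne C4.stmtC4 LevelThree.stmtC5
    (stmtCubeFree_of_keyHigh CarayolHigh.stmtKeyHigh)
    LowerSq.stmtLower h38 LLp.stmt40 LowerSq.stmt58 stmtCore
    (fun P hp => Fermat.Agent.S12.result P hp) (stmt43_of_stmt38 h38) stmt44
    n hn a b c ha hb hc

end Fermat.Agent.LT.Leaves
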