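import Fermat.Agent.LT.Interface
import Fermat.Agent.LT.C0.FreyFive
import Fermat.Agent.Wiring.Modularity
import Fermat.Agent.Wiring.FreyEndgame
import Fermat.Agent.Wiring.Mazur
import Fermat.Agent.Wiring.Root

/-!
# LT route, C6: from residual modularity at 3 to the Frey endgame

* `StmtCubeFree`: a residual level at 3 can be made cube-free away from 3.
* `StmtFreyExact`: every Frey model is modular of exact conductor level.
* `stmtFreyExact_of`: `StmtFreyResidualThree`, `StmtCubeFree` and S59 give `StmtFreyExact`; the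
  switch at 5 needs only the congruence carried by the residual data and the irreducibility of
  the mod 5 representation of a Frey curve.
* S06, S04, S45, S03, S01 from `StmtFreyExact`; S60 is not used.
-/

set_option autoImplicit false

open WeierstrassCurve WeierstrassCurve.Affine.Point
open scoped WeierstrassCurve.Affine

noncomputable section

namespace Fermat.Agent.LT

/-- Residual levels at 3 can be made cube-free away from 3. -/
def StmtCubeFree : Prop :=
  ∀ W : WeierstrassCurve ℤ, W.Δ ≠ 0 → W.IsSemistableModel → W.ModRepIsIrreducible 3 →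
    ∀ M : ℕ, 0 < M → W.IsResiduallyModularOfLevel 3 M → ¬ 3 ^ 2 ∣ M →
    ∃ M' : ℕ, 0 < M' ∧ W.IsResiduallyModularOfLevel 3 M' ∧ ¬ 3 ^ 2 ∣ M' ∧
      ∀ q : ℕ, q.Prime → q ≠ 3 → ¬ q ^ 3 ∣ M'

/-- Frey models are modular of exact conductor level. -/
def StmtFreyExact : Prop :=
  ∀ P : FreyPackage, Mlc1IsModularModelOfExactConductorLevel P.freyCurveInt

/-- C6. -/
theorem stmtFreyExact_of (hLT : StmtFreyResidualThree) (hcf : StmtCubeFree)
    (h59 : Wiring.Stmt59) : StmtFreyExact := by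
  intro P
  obtain ⟨W, hΔ, hW, hirr, hcong, M, hM0, hres, h9⟩ := hLT P
  obtain ⟨M', hM0', hres', h9', hcube⟩ := hcf W hΔ hW hirr M hM0 hres h9
  have : NeZero M' := ⟨hM0'.ne'⟩
  obtain ⟨N, hN0, hsq, hN, hmod⟩ := h59 3 (Or.inl rfl) W hΔ hW hirr M' hres' h9' hcube
  have : NeZero N := ⟨hN0.ne'⟩
  have hnsq : ∀ q : ℕ, q.Prime → ¬ q ^ 2 ∣ N := fun q hq h =>
    Nat.squarefree_iff_prime_squarefree.1 hsq q hq (by rwa [← pow_two])
  exact h59 5 (Or.inr rfl) P.freyCurveInt (Wiring.freyCurveInt_delta_ne_zero P)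
    (Wiring.freyCurveInt_isSemistableModel P) (C0.frey_irreducible_five P) N
    (Wiring.isResiduallyModularOfLevel_five_of_congruent (fun q hq h => (hN q hq).2 h) hmod hcong)
    (hnsq 5 (by norm_num))
    (fun q hq _ h => hnsq q hq ((pow_dvd_pow q (by norm_num : 2 ≤ 3)).trans h))

/-- S04 for Frey curves, without S60. -/
theorem stmt04_of_freyExact (hex : StmtFreyExact) : Wiring.Stmt04 := fun P => by
  obtain ⟨N, hN0, -, -, hmod⟩ := hex P
  exact ⟨P.freyCurveInt, Wiring.freyCurveInt_isIntegralModelOf P, N, hN0, hmod⟩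

/-- S06 for Frey curves. -/
theorem stmt06_of_freyExact (hex : StmtFreyExact) : Wiring.Stmt06 := fun P => by
  obtain ⟨N, hN0, hsq, hN, f, hf, hfc⟩ := hex P
  refine ⟨N, ⟨hN0, hsq, fun q hq hqN =>
    Wiring.prime_dvd_abc_of_dvd_delta P hq ((hN q hq).1 hqN)⟩, ?_⟩
  obtain ⟨𝔪, h𝔪, hp⟩ := FLTPrelim.exists_maximalIdeal_natCast_prime_mem P.pp
  exact ⟨f, P.freyCurveInt, 𝔪, hf, Wiring.freyCurveInt_isIntegralModelOf P, h𝔪, hp,
    fun ℓ hℓ hgood hℓN _ => ⟨(P.freyCurveInt.apOfModel ℓ : integralClosure ℤ ℂ),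
      by rw [hfc ℓ hℓ hgood hℓN]; simp, by simp⟩⟩

/-- S45 from `StmtFreyExact` and level lowering. -/
theorem stmt45_of_freyExact (hex : StmtFreyExact) (h05 : Wiring.Stmt05) (h43 : Wiring.Stmt43)
    (h44 : Wiring.Stmt44) : Wiring.Stmt45 :=
  Wiring.stmt45_of h05 (stmt06_of_freyExact hex) h43 h44

/-- S03 from `StmtFreyExact`, irreducibility and level lowering. -/
theorem stmt03_of_freyExact (hex : StmtFreyExact) (h05 : Wiring.Stmt05) (h07 : Wiring.Stmt07)
    (h09 : Wiring.Stmt09) (h43 : Wiring.Stmt43) (h44 : Wiring.Stmt44) : Wiring.Stmt03 :=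
  Wiring.stmt03_of (stmt04_of_freyExact hex) h09 (stmt45_of_freyExact hex h05 h43 h44) h07

/-- S01 from the pieces of the LT route, S59 and the milestones of the endgame. -/
theorem fermat_of (h0 : StmtC0) (h13 : StmtWeightOne) (h4 : StmtC4) (h5 : StmtC5)
    (hcf : StmtCubeFree) (h59 : Wiring.Stmt59) (h02 : Wiring.Stmt02) (h05 : Wiring.Stmt05)
    (h07 : Wiring.Stmt07) (h10 : Wiring.Stmt10) (h11 : Wiring.Stmt11) (h12 : Wiring.Stmt12)
    (h13' : Wiring.Stmt13) (h43 : Wiring.Stmt43) (h44 : Wiring.Stmt44)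
    (n : ℕ) (hn : 3 ≤ n) (a b c : ℕ) (ha : 0 < a) (hb : 0 < b) (hc : 0 < c) :
    a ^ n + b ^ n ≠ c ^ n :=
  Wiring.stmt01_of h02
    (stmt03_of_freyExact (stmtFreyExact_of (stmtFreyResidualThree_of h0 h13 h4 h5) hcf h59)
      h05 h07 (Wiring.stmt09_of h10 h11 h12 h13') h43 h44) n hn a b c ha hb hc

end Fermat.Agent.LT
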