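import Fermat.Agent.LT.Wiring.Frey
import Fermat.Agent.R59.Assembly
import Fermat.Agent.S02
import Fermat.Agent.S05
import Fermat.Agent.S07
import Fermat.Agent.S10
import Fermat.Agent.S11
import Fermat.Agent.S13

/-!
# LT route: S01 from the inputs not yet proved

The milestones already proved (S02, S05, S07, S10, S11, S13) are plugged in, and S59 is unfolded
into the inputs of `R59.stmt59_of`. Every remaining hypothesis of `fermat_of_inputs` is work to
do.
-/

set_option autoImplicit false

noncomputable section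

namespace Fermat.Agent.LT

/-- S59 from the inputs of the R59 assembly. -/
theorem stmt59_of_inputs (hLS : R59.StmtLower) (h38 : R59.Stmt38) (h40 : R59.Stmt40)
    (h58 : R59.Stmt58) (hcore : R59.StmtCore) : Wiring.Stmt59 :=
  fun p hp W hΔ hW hirr M₀ _ hres hM₀ hM₀3 =>
    R59.stmt59_of hLS h38 h40 h58 hcore p hp W hΔ hW hirr M₀ hres hM₀ hM₀3

/-- S01 from the unproved inputs. -/
theorem fermat_of_inputs (h0 : StmtC0) (h1 : StmtWeightOne) (h4 : StmtC4) (h5 : StmtC5)
    (hcf : StmtCubeFree) (hLS : R59.StmtLower) (h38 : R59.Stmt38) (h40 : R59.Stmt40)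
    (h58 : R59.Stmt58) (hcore : R59.StmtCore)
    (h12 : Wiring.Stmt12) (h43 : Wiring.Stmt43) (h44 : Wiring.Stmt44)
    (n : ℕ) (hn : 3 ≤ n) (a b c : ℕ) (ha : 0 < a) (hb : 0 < b) (hc : 0 < c) :
    a ^ n + b ^ n ≠ c ^ n :=
  fermat_of h0 h1 h4 h5 hcf (stmt59_of_inputs hLS h38 h40 h58 hcore)
    (fun a b c ha hb hc p hp hp5 H => S02.result a b c ha hb hc p hp hp5 H)
    (fun P _ hq hq2 hqp => S05.result P hq hq2 hqp) S07.result S10.result S11.result h12
    S13.result h43 h44 n hn a b c ha hb hc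

end Fermat.Agent.LT
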