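import Fermat.Agent.LT.Wiring.Frey
import Fermat.Agent.LT.C0.Main
import Fermat.Agent.LT.C4.Main
import Fermat.Agent.LT.LevelThree.Main

/-!
# LT route: the rows for Frey curves from S59

S04 and S06 from the weight one form, cube-free levels and S59; S03 from them and the endgame
milestones.
-/

set_option autoImplicit false

noncomputable section

namespace Fermat.Agent.LT.TopRows

/-- Frey models are modular of exact conductor level. -/
theorem stmtFreyExact_top (hW1 : StmtWeightOne) (hcf : StmtCubeFree) (h59 : Wiring.Stmt59) :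
    StmtFreyExact :=
  stmtFreyExact_of (stmtFreyResidualThree_of C0.stmtC0 hW1 C4.stmtC4 LevelThree.stmtC5) hcf h59

/-- S04. -/
theorem stmt04_top (hW1 : StmtWeightOne) (hcf : StmtCubeFree) (h59 : Wiring.Stmt59) :
    Wiring.Stmt04 :=
  stmt04_of_freyExact (stmtFreyExact_top hW1 hcf h59)

/-- S06. -/
theorem stmt06_top (hW1 : StmtWeightOne) (hcf : StmtCubeFree) (h59 : Wiring.Stmt59) :
    Wiring.Stmt06 :=
  stmt06_of_freyExact (stmtFreyExact_top hW1 hcf h59)

/-- S03. -/
theorem stmt03_top (hW1 : StmtWeightOne) (hcf : StmtCubeFree) (h59 : Wiring.Stmt59)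
    (h05 : Wiring.Stmt05) (h07 : Wiring.Stmt07) (h09 : Wiring.Stmt09) (h43 : Wiring.Stmt43)
    (h44 : Wiring.Stmt44) : Wiring.Stmt03 :=
  stmt03_of_freyExact (stmtFreyExact_top hW1 hcf h59) h05 h07 h09 h43 h44

end Fermat.Agent.LT.TopRows
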